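import Mathlib.Analysis.InnerProductSpace.Basic
import Mathlib.LinearAlgebra.AffineSpace.FiniteDimensional
import Mathlib.Tactic

/-!
# The theorem of Sylvester and Gallai

Kelly's proof: a point-line pair of least positive distance, the line having three of the points,
gives a nearer pair.
-/

set_option autoImplicit false

noncomputable section

open Finset AffineSubspace
open scoped RealInnerProductSpace

namespace FA.SylvesterGallai

variable {E : Type*} [NormedAddCommGroup E] [InnerProductSpace ℝ E]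

theorem mem_line_iff {A B C : E} :
    C ∈ line[ℝ, A, B] ↔ ∃ r : ℝ, C = A + r • (B - A) := by
  rw [mem_affineSpan_pair_iff_exists_lineMap_eq]
  refine exists_congr fun r => ?_
  rw [AffineMap.lineMap_apply_module', eq_comm, add_comm]

/-- The squared distance from `P` to the line through `A` and `B`. -/
def offset (A B P : E) : ℝ :=
  ⟪P - A, P - A⟫ - ⟪P - A, B - A⟫ ^ 2 / ⟪B - A, B - A⟫

/-- Two of three distinct reals lie on one side of zero. -/
theorem exists_same_side {a b c : ℝ} (h1 : a ≠ b) (h2 : a ≠ c) (h3 : b ≠ c) :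
    ∃ s r, (s = a ∨ s = b ∨ s = c) ∧ (r = a ∨ r = b ∨ r = c) ∧ s ≠ r ∧ (r - s) ^ 2 ≤ r ^ 2 := by
  have key : ∀ x y : ℝ, x ≠ y → 0 ≤ x * y →
      (x = a ∨ x = b ∨ x = c) → (y = a ∨ y = b ∨ y = c) →
      ∃ s r, (s = a ∨ s = b ∨ s = c) ∧ (r = a ∨ r = b ∨ r = c) ∧ s ≠ r ∧
        (r - s) ^ 2 ≤ r ^ 2 := by
    intro x y hne hxy hx hy
    rcases le_total |x| |y| with h | h
    · refine ⟨x, y, hx, hy, hne, ?_⟩
      have := mul_le_mul_of_nonneg_left h (abs_nonneg x)
      rw [← abs_mul, ← abs_mul, abs_of_nonneg hxy, abs_of_nonneg (mul_self_nonneg x)] at this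
      nlinarith
    · refine ⟨y, x, hy, hx, hne.symm, ?_⟩
      have := mul_le_mul_of_nonneg_left h (abs_nonneg y)
      rw [← abs_mul, ← abs_mul, mul_comm y x, abs_of_nonneg hxy,
        abs_of_nonneg (mul_self_nonneg y)] at this
      nlinarith
  rcases le_total 0 a with ha | ha <;> rcases le_total 0 b with hb | hb <;>
    rcases le_total 0 c with hc | hc
  all_goals first
    | exact key a b h1 (mul_nonneg ha hb) (by simp) (by simp)
    | exact key a b h1 (mul_nonneg_of_nonpos_of_nonpos ha hb) (by simp) (by simp)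
    | exact key a c h2 (mul_nonneg ha hc) (by simp) (by simp)
    | exact key a c h2 (mul_nonneg_of_nonpos_of_nonpos ha hc) (by simp) (by simp)
    | exact key b c h3 (mul_nonneg hb hc) (by simp) (by simp)
    | exact key b c h3 (mul_nonneg_of_nonpos_of_nonpos hb hc) (by simp) (by simp)

/-- **The theorem of Sylvester and Gallai.** -/
theorem exists_ordinary {S : Finset E} (hS : ¬Collinear ℝ (S : Set E)) :
    ∃ A ∈ S, ∃ B ∈ S, A ≠ B ∧ ∀ C ∈ S, C ∈ line[ℝ, A, B] → C = A ∨ C = B := by
  classical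
  have hne : S.Nonempty := by
    refine nonempty_iff_ne_empty.2 fun h => hS ?_
    rw [h, coe_empty]
    exact collinear_empty ℝ E
  let T := ((S ×ˢ S) ×ˢ S).filter fun x => x.1.1 ≠ x.1.2 ∧ x.2 ∉ line[ℝ, x.1.1, x.1.2]
  have hT : T.Nonempty := by
    obtain ⟨A, hA⟩ := hne
    rw [collinear_iff_of_mem (mem_coe.2 hA)] at hS
    push Not at hS
    obtain ⟨B, hB, hB'⟩ := hS 0
    have hAB : A ≠ B := fun h => hB' 0 (by simp [h])
    obtain ⟨P, hP, hP'⟩ := hS (B - A)
    refine ⟨⟨⟨A, B⟩, P⟩, mem_filter.2 ⟨by simp [mem_coe.1 hA, mem_coe.1 hB, mem_coe.1 hP], hAB,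
      fun h => ?_⟩⟩
    obtain ⟨r, hr⟩ := mem_line_iff.1 h
    exact hP' r (hr.trans (by rw [vadd_eq_add, add_comm]))
  obtain ⟨⟨⟨A, B⟩, P⟩, hmem, hmin⟩ :=
    exists_min_image T (fun x => offset x.1.1 x.1.2 x.2) hT
  simp only [T, mem_filter, mem_product] at hmem
  obtain ⟨⟨⟨hA, hB⟩, hP⟩, hAB, hPline⟩ := hmem
  refine ⟨A, hA, B, hB, hAB, fun C hC hline => ?_⟩
  by_contra! hCne
  obtain ⟨c, hc⟩ := mem_line_iff.1 hline
  have hu : B - A ≠ 0 := sub_ne_zero.2 hAB.symm
  set u := B - A with hudef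
  have hq : 0 < ⟪u, u⟫ := by
    rw [real_inner_self_eq_norm_sq]
    positivity
  set t₀ := ⟪P - A, u⟫ / ⟪u, u⟫ with ht₀
  set v := P - A - t₀ • u with hvdef
  have hvu : ⟪v, u⟫ = 0 := by
    rw [hvdef, inner_sub_left, real_inner_smul_left, ht₀, div_mul_cancel₀ _ hq.ne', sub_self]
  have hh : 0 < ⟪v, v⟫ := by
    refine real_inner_self_pos.2 fun h0 => hPline (mem_line_iff.2 ⟨t₀, ?_⟩)
    rw [hvdef, sub_eq_zero, sub_eq_iff_eq_add] at h0
    rw [h0, add_comm]
  have hoff : offset A B P = ⟪v, v⟫ := by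
    have e : P - A = v + t₀ • u := by rw [hvdef, sub_add_cancel]
    rw [offset, ← hudef, e]
    simp only [inner_add_left, inner_add_right, real_inner_smul_left, real_inner_smul_right,
      hvu, real_inner_comm v u]
    field_simp
    ring
  have hc0 : c ≠ 0 := fun h => hCne.1 (by rw [hc, h, zero_smul, add_zero])
  have hc1 : c ≠ 1 := fun h => hCne.2 (by rw [hc, h, one_smul, hudef, add_sub_cancel])
  obtain ⟨s, r, hs, hr, hsr, hle⟩ := exists_same_side (a := 0 - t₀) (b := 1 - t₀) (c := c - t₀)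
    (fun h => by linarith) (fun h => hc0 (by linarith)) (fun h => hc1 (by linarith))
  have hmemS : ∀ w, (w = 0 - t₀ ∨ w = 1 - t₀ ∨ w = c - t₀) → A + (w + t₀) • u ∈ S := by
    rintro w (rfl | rfl | rfl) <;> rw [sub_add_cancel]
    · simpa using hA
    · rw [one_smul, hudef, add_sub_cancel]
      exact hB
    · rw [← hc]
      exact hC
  set X := A + (s + t₀) • u with hX
  set Y := A + (r + t₀) • u with hY
  have eP : P = A + t₀ • u + v := by rw [hvdef]; abel
  have eX : X - P = s • u - v := by rw [hX, eP, add_smul]; abel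
  have eY : Y - P = r • u - v := by rw [hY, eP, add_smul]; abel
  have hPY : P ≠ Y := fun h => hPline (mem_line_iff.2 ⟨r + t₀, h⟩)
  have hXline : X ∉ line[ℝ, P, Y] := by
    intro h
    obtain ⟨k, hk⟩ := mem_line_iff.1 h
    have hk' : s • u - v = k • (r • u - v) := by
      rw [← eX, ← eY, sub_eq_iff_eq_add, add_comm]
      exact hk
    have h1 := congrArg (fun z => ⟪z, v⟫) hk'
    have h2 := congrArg (fun z => ⟪z, u⟫) hk'
    simp only [inner_sub_left, real_inner_smul_left, hvu, real_inner_comm v u] at h1 h2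
    have : k = 1 := by nlinarith
    subst this
    apply hsr
    nlinarith
  have h' := hmin ⟨⟨P, Y⟩, X⟩
    (mem_filter.2 ⟨by simp [hP, hX, hY, hmemS s hs, hmemS r hr], hPY, hXline⟩)
  simp only [hoff] at h'
  have hval : offset P Y X = ⟪v, v⟫ * ⟪u, u⟫ * (r - s) ^ 2 / (r ^ 2 * ⟪u, u⟫ + ⟪v, v⟫) := by
    have ew : ∀ s' r' : ℝ, ⟪s' • u - v, r' • u - v⟫ = s' * r' * ⟪u, u⟫ + ⟪v, v⟫ := fun s' r' => by
      simp only [inner_sub_left, inner_sub_right, real_inner_smul_left, real_inner_smul_right,
        hvu, real_inner_comm v u]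
      ring
    have hD : 0 < r * r * ⟪u, u⟫ + ⟪v, v⟫ :=
      add_pos_of_nonneg_of_pos (mul_nonneg (mul_self_nonneg r) hq.le) hh
    rw [offset, eX, eY, ew, ew, ew, pow_two r, eq_div_iff hD.ne', sub_mul,
      div_mul_cancel₀ _ hD.ne']
    ring
  rw [hval, le_div_iff₀ (by positivity)] at h'
  nlinarith [mul_le_mul_of_nonneg_left hle (mul_nonneg hh.le hq.le), mul_pos hh hh]

open scoped Classical in
/-- The connecting lines. -/
def lines (S : Finset E) : Finset (AffineSubspace ℝ E) :=
  ((S ×ˢ S).filter fun x => x.1 ≠ x.2).image fun x => line[ℝ, x.1, x.2]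

theorem mem_lines {S : Finset E} {L : AffineSubspace ℝ E} :
    L ∈ lines S ↔ ∃ A ∈ S, ∃ B ∈ S, A ≠ B ∧ line[ℝ, A, B] = L := by
  classical
  simp only [lines, mem_image, mem_filter, mem_product, Prod.exists]
  grind

/-- **At least as many lines as points.** -/
theorem card_le_lines : ∀ {S : Finset E}, ¬Collinear ℝ (S : Set E) → #S ≤ #(lines S) := by
  classical
  intro S
  induction S using Finset.strongInduction with
  | H S ih =>
    intro hS
    obtain ⟨A, hA, B, hB, hAB, hord⟩ := exists_ordinary hS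
    have hmono : lines (S.erase A) ⊆ lines S := fun L hL => by
      obtain ⟨C, hC, D, hD, hne, rfl⟩ := mem_lines.1 hL
      exact mem_lines.2 ⟨C, mem_of_mem_erase hC, D, mem_of_mem_erase hD, hne, rfl⟩
    by_cases hcol : Collinear ℝ (S.erase A : Set E)
    · have hBA : B ∈ S.erase A := mem_erase.2 ⟨hAB.symm, hB⟩
      have hcard : 2 ≤ #(S.erase A) := by
        by_contra! hlt
        refine hS ((collinear_pair ℝ A B).subset fun x hx => ?_)
        by_cases hxA : x = A
        · simp [hxA]
        · have := card_le_one.1 (Nat.le_of_lt_succ hlt) x (mem_erase.2 ⟨hxA, hx⟩) B hBA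
          simp [this]
      obtain ⟨C, hC, hCB⟩ := exists_mem_ne hcard B
      have hall : ∀ D ∈ S.erase A, D ∈ line[ℝ, B, C] := fun D hD =>
        hcol.mem_affineSpan_of_mem_of_ne (mem_coe.2 hBA) (mem_coe.2 hC) (mem_coe.2 hD) hCB.symm
      have hAout : A ∉ line[ℝ, B, C] := fun h => by
        refine hS ((collinear_iff_exists_forall_eq_smul_vadd _).2 ⟨B, C - B, fun x hx => ?_⟩)
        obtain ⟨r, hr⟩ := mem_line_iff.1
          (show x ∈ line[ℝ, B, C] by
            by_cases hxA : x = A
            · exact hxA ▸ h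
            · exact hall x (mem_erase.2 ⟨hxA, mem_coe.1 hx⟩))
        exact ⟨r, by rw [hr, vadd_eq_add, add_comm]⟩
      have hsub : insert (line[ℝ, B, C]) ((S.erase A).image fun D => line[ℝ, A, D]) ⊆ lines S := by
        refine insert_subset (mem_lines.2 ⟨B, hB, C, mem_of_mem_erase hC, hCB.symm, rfl⟩)
          fun L hL => ?_
        obtain ⟨D, hD, rfl⟩ := mem_image.1 hL
        exact mem_lines.2 ⟨A, hA, D, mem_of_mem_erase hD, (ne_of_mem_erase hD).symm, rfl⟩
      have hnotin : line[ℝ, B, C] ∉ (S.erase A).image fun D => line[ℝ, A, D] := fun h => by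
        obtain ⟨D, -, hD⟩ := mem_image.1 h
        exact hAout (hD ▸ left_mem_affineSpan_pair ℝ A D)
      have hinj : Set.InjOn (fun D => line[ℝ, A, D]) (S.erase A : Set E) := by
        intro D hD D' hD' (he : line[ℝ, A, D] = line[ℝ, A, D'])
        by_contra hne
        refine hAout ?_
        have h1 : line[ℝ, D, D'] = line[ℝ, A, D] :=
          affineSpan_pair_eq_of_mem_of_mem_of_ne (right_mem_affineSpan_pair ℝ A D)
            (he ▸ right_mem_affineSpan_pair ℝ A D') hne
        exact affineSpan_pair_le_of_mem_of_mem (hall D hD) (hall D' hD')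
          (h1 ▸ left_mem_affineSpan_pair ℝ A D)
      have := card_le_card hsub
      rw [card_insert_of_notMem hnotin, card_image_of_injOn hinj, card_erase_add_one hA] at this
      exact this
    · have hlt := ih _ (erase_ssubset hA) hcol
      have hnew : line[ℝ, A, B] ∉ lines (S.erase A) := fun h => by
        obtain ⟨C, hC, D, hD, hne, he⟩ := mem_lines.1 h
        have hC' := hord C (mem_of_mem_erase hC) (he ▸ left_mem_affineSpan_pair ℝ C D)
        have hD' := hord D (mem_of_mem_erase hD) (he ▸ right_mem_affineSpan_pair ℝ C D)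
        rcases hC' with rfl | rfl
        · exact notMem_erase _ _ hC
        rcases hD' with rfl | rfl
        · exact notMem_erase _ _ hD
        exact hne rfl
      have := card_le_card (insert_subset (mem_lines.2 ⟨A, hA, B, hB, hAB, rfl⟩) hmono)
      rw [card_insert_of_notMem hnew] at this
      have := card_erase_add_one hA
      omega

end FA.SylvesterGallai

end
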